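import Fermat.Agent.S41.Spec.PD
import Fermat.Agent.S21.H585.LowerBound

/-!
# Row S41, block PD, leaf DICT-a (D1) (helper874)

`maninRepExists_h874 : Spec.ManinRepExistsStatement`: every torsion-trivial homomorphism
`φ : Γ → A` (`Γ ≤ SL(2,ℤ)`, `-1 ∈ Γ`, `A` ANY abelian group) has a Manin representative.

Proof: the induced cocycle `f₀ = indc Γ φ` (Shapiro) restricts to `φ` at the base point.  A cocycle
`f` with `f (g ^ k) x = 0` whenever `g ^ k • x = x` is a `g`-coboundary `n|g - n`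
(`exists_cobd_of_fix_h874`, no finiteness, no division).  Apply this to `g = S` (normalise
`f₁ = f₀ - ∂n`, `f₁ S = 0`) and then to `g = S T` (`f₁ (S T) = m|ST - m`).
-/

set_option autoImplicit false
set_option linter.style.haveILetI false

namespace Fermat.Agent.S41.H874

open CongruenceSubgroup Matrix.SpecialLinearGroup ModularGroup
open Fermat.Agent.S21.H585
open scoped MatrixGroups

universe u

/-- **General coboundary lemma** (any abelian coefficient group): a cocycle which vanishes at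
`(g ^ k, x)` whenever `g ^ k` fixes `x` is a `g`-coboundary. -/
theorem exists_cobd_of_fix_h874 {G : Type*} [Group G] {X : Type*} [MulAction G X] {A : Type*}
    [AddCommGroup A] {f : G → X → A} (hf : IsCocycle f) (g : G)
    (hfix : ∀ (k : ℤ) (x : X), g ^ k • x = x → f (g ^ k) x = 0) :
    ∃ n : X → A, ∀ x, f g x = n (g • x) - n x := by
  classical
  let r : X → X := fun x => Quotient.out (orbMk g x)
  have hr : ∀ x, ∃ k : ℤ, g ^ k • r x = x := fun x => by
    have h1 : orbMk g (r x) = orbMk g x := Quotient.out_eq' _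
    exact (orbMk_eq_iff g x (r x)).mp h1.symm
  choose k hk using hr
  have hrg : ∀ x, r (g • x) = r x := fun x => by
    show Quotient.out (orbMk g (g • x)) = Quotient.out (orbMk g x)
    rw [orbMk_smul]
  have hwd : ∀ (y : X) (a b : ℤ), g ^ a • y = g ^ b • y → f (g ^ a) y = f (g ^ b) y := by
    intro y a b hab
    have h1 : g ^ a = g ^ (a - b) * g ^ b := by rw [← zpow_add, sub_add_cancel]
    have h2 : g ^ (a - b) • g ^ b • y = g ^ b • y := by
      rw [← mul_smul, ← zpow_add, sub_add_cancel, hab]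
    rw [h1, hf, hfix (a - b) (g ^ b • y) h2, add_zero]
  refine ⟨fun x => f (g ^ k x) (r x), fun x => ?_⟩
  show f g x = f (g ^ k (g • x)) (r (g • x)) - f (g ^ k x) (r x)
  rw [hrg]
  have h2 : f (g ^ k (g • x)) (r x) = f (g ^ (1 + k x)) (r x) := by
    apply hwd
    have h3 := hk (g • x)
    rw [hrg] at h3
    rw [h3, zpow_one_add, mul_smul, hk]
  rw [h2, zpow_one_add, hf, hk]
  abel

section Indc

variable (Γ : Subgroup SL(2, ℤ)) {A : Type*} [AddCommGroup A]

/-- The induced cocycle is a cocycle. -/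
theorem indc_isCocycle_h874 (φ : Additive Γ →+ A) : IsCocycle (indc Γ φ) := by
  intro g h x
  unfold indc
  rw [add_comm, ← map_add, ← ofMul_mul]
  refine congrArg φ (congrArg Additive.ofMul (Subtype.ext ?_))
  rw [Subgroup.coe_mul]
  simp only [mul_smul]
  group

/-- `Quotient.out` of the base point lies in `Γ`. -/
theorem out_basePt_mem_h874 : (Quotient.out (basePt Γ) : SL(2, ℤ)) ∈ Γ := by
  have h : ((1 : SL(2, ℤ)) : SL(2, ℤ) ⧸ Γ)
      = ((Quotient.out (basePt Γ) : SL(2, ℤ)) : SL(2, ℤ) ⧸ Γ) := (QuotientGroup.out_eq' _).symm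
  have h2 := QuotientGroup.eq.mp h
  rwa [inv_one, one_mul] at h2

/-- The induced cocycle restricts to `φ` at the base point. -/
theorem indc_basePt_h874 (φ : Additive Γ →+ A) (γ : Γ) :
    indc Γ φ (γ : SL(2, ℤ)) (basePt Γ) = φ (Additive.ofMul γ) := by
  unfold indc
  have hb := out_basePt_mem_h874 Γ
  have h1 : (⟨(Quotient.out ((γ : SL(2, ℤ)) • basePt Γ) : SL(2, ℤ))⁻¹ * (γ : SL(2, ℤ))
      * Quotient.out (basePt Γ), sec_mem Γ (γ : SL(2, ℤ)) (basePt Γ)⟩ : Γ)
      = (⟨Quotient.out (basePt Γ), hb⟩ : Γ)⁻¹ * γ * ⟨Quotient.out (basePt Γ), hb⟩ := by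
    apply Subtype.ext
    simp only [Subgroup.coe_mul, Subgroup.coe_inv, smul_basePt_of_mem Γ γ.2]
  rw [h1, ofMul_mul, ofMul_mul, ofMul_inv, map_add, map_add, map_neg]
  abel

/-- The induced cocycle of a torsion-trivial class vanishes at `(t, x)` when `t` is of finite order
and fixes `x`. -/
theorem indc_eq_zero_of_fix_h874 (φ : Additive Γ →+ A)
    (hφ : ∀ γ : Γ, IsOfFinOrder γ → φ (Additive.ofMul γ) = 0) (t : SL(2, ℤ))
    (ht : IsOfFinOrder t) (x : SL(2, ℤ) ⧸ Γ) (hx : t • x = x) : indc Γ φ t x = 0 := by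
  unfold indc
  apply hφ
  rw [← Submonoid.isOfFinOrder_coe]
  show IsOfFinOrder ((Quotient.out (t • x) : SL(2, ℤ))⁻¹ * t * Quotient.out x)
  rw [hx]
  have h1 : (Quotient.out x : SL(2, ℤ))⁻¹ * t * Quotient.out x
      = (MulAut.conj (Quotient.out x : SL(2, ℤ))⁻¹).toMonoidHom t := by
    simp
  rw [h1]
  exact MonoidHom.isOfFinOrder _ ht

end Indc

theorem isOfFinOrder_S_h874 : IsOfFinOrder (S : SL(2, ℤ)) := by
  rw [isOfFinOrder_iff_pow_eq_one]
  refine ⟨4, by norm_num, ?_⟩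
  have h2 : (S : SL(2, ℤ)) ^ 2 = -1 := by rw [pow_two, S_mul_S_eq_neg_one]
  calc (S : SL(2, ℤ)) ^ 4 = (S ^ 2) ^ 2 := by rw [← pow_mul]
    _ = 1 := by rw [h2]; simp

theorem isOfFinOrder_ST_h874 : IsOfFinOrder (S * T : SL(2, ℤ)) := by
  rw [isOfFinOrder_iff_pow_eq_one]
  refine ⟨6, by norm_num, ?_⟩
  have h3 : (S * T : SL(2, ℤ)) ^ 3 = -1 := by rw [pow_succ, pow_two, ST_cube_eq_neg_one]
  calc (S * T : SL(2, ℤ)) ^ 6 = ((S * T) ^ 3) ^ 2 := by rw [← pow_mul]
    _ = 1 := by rw [h3]; simp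

/-- **(D1)** every torsion-trivial class has a Manin representative. -/
theorem maninRepExists_h874 : Spec.ManinRepExistsStatement.{u} := by
  intro Γ _ _ A _ φ hφ
  have hf₀ : IsCocycle (indc Γ φ) := indc_isCocycle_h874 Γ φ
  -- normalise at `S`
  obtain ⟨n, hn⟩ := exists_cobd_of_fix_h874 hf₀ S fun k x hx =>
    indc_eq_zero_of_fix_h874 Γ φ hφ _ isOfFinOrder_S_h874.zpow x hx
  let f₁ : SL(2, ℤ) → SL(2, ℤ) ⧸ Γ → A := fun g x => indc Γ φ g x - (n (g • x) - n x)
  have hf₁ : IsCocycle f₁ := by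
    intro g h x
    show indc Γ φ (g * h) x - (n ((g * h) • x) - n x) =
      (indc Γ φ h x - (n (h • x) - n x)) + (indc Γ φ g (h • x) - (n (g • h • x) - n (h • x)))
    rw [hf₀, mul_smul]
    abel
  have hf₁fix : ∀ (t : SL(2, ℤ)), IsOfFinOrder t → ∀ x : SL(2, ℤ) ⧸ Γ, t • x = x →
      f₁ t x = 0 := by
    intro t ht x hx
    show indc Γ φ t x - (n (t • x) - n x) = 0
    rw [indc_eq_zero_of_fix_h874 Γ φ hφ t ht x hx, hx]
    abel
  obtain ⟨m, hm⟩ := exists_cobd_of_fix_h874 hf₁ (S * T) fun k x hx =>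
    hf₁fix _ isOfFinOrder_ST_h874.zpow x hx
  refine ⟨m, f₁, ⟨hf₁, fun x => ?_, hm⟩, fun γ => ?_⟩
  · show indc Γ φ S x - (n (S • x) - n x) = 0
    rw [hn]
    abel
  · show φ (Additive.ofMul γ) = indc Γ φ (γ : SL(2, ℤ)) (basePt Γ)
      - (n ((γ : SL(2, ℤ)) • basePt Γ) - n (basePt Γ))
    rw [indc_basePt_h874, smul_basePt_of_mem Γ γ.2]
    abel

end Fermat.Agent.S41.H874
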