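import Fermat.Agent.S41.H874.PDCuspSum
import Fermat.Agent.S41.H874.PDManinRep

/-!
# Row S41, block PD: leaves HEIS-U and D1, unconditional (helper874)

* `maninRepExists_h874 : Spec.ManinRepExistsStatement`   (D1, in `PDManinRep.lean`)
* `cuspSumZero_h874    : Spec.CuspSumZeroStatement`      (HEIS-U)
-/

set_option autoImplicit false

namespace Fermat.Agent.S41.H874

universe u

/-- **(HEIS-U)** a torsion-trivial homomorphism sums to `0` over a `T`-orbit system. -/
theorem cuspSumZero_h874 : Spec.CuspSumZeroStatement.{u} :=
  cuspSumZero_of maninRepExists_h874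

end Fermat.Agent.S41.H874
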