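import Fermat.Agent.S41.Spec.PD

/-!
# Row S41, block PD, leaf HEIS-U (helper874)

`cuspSumZero_of : Spec.ManinRepExistsStatement → Spec.CuspSumZeroStatement`.

If `χ : Γ → A` is represented by the Manin symbol `m` (cocycle `f` with `f S = 0`,
`f (S T) = m|ST - m`), then `f T = m|ST - m` as well, and for `γ = h⁻¹ T ^ w h ∈ Γ`
`χ γ = f (T ^ w) (h Γ) = ∑_{j < w} (m (S T • T ^ j h Γ) - m (T ^ j h Γ))`.
Summing over a `T`-orbit system gives `∑_{x ∈ X} (m (S T • x) - m x) = 0`.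
-/

set_option autoImplicit false
set_option linter.style.haveILetI false

namespace Fermat.Agent.S41.H874

open CongruenceSubgroup Matrix.SpecialLinearGroup ModularGroup
open scoped MatrixGroups

universe u

section Cocycle

variable {Γ : Subgroup SL(2, ℤ)} {A : Type*} [AddCommGroup A]
  {f : SL(2, ℤ) → SL(2, ℤ) ⧸ Γ → A}

theorem cocycle_one_h874
    (hf : ∀ (g h : SL(2, ℤ)) (x : SL(2, ℤ) ⧸ Γ), f (g * h) x = f h x + f g (h • x))
    (x : SL(2, ℤ) ⧸ Γ) : f 1 x = 0 := by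
  have := hf 1 1 x
  rw [one_mul, one_smul] at this
  exact left_eq_add.mp this

theorem cocycle_inv_h874
    (hf : ∀ (g h : SL(2, ℤ)) (x : SL(2, ℤ) ⧸ Γ), f (g * h) x = f h x + f g (h • x))
    (g : SL(2, ℤ)) (x : SL(2, ℤ) ⧸ Γ) : f g⁻¹ (g • x) = - f g x := by
  have := hf g⁻¹ g x
  rw [inv_mul_cancel, cocycle_one_h874 hf] at this
  exact eq_neg_of_add_eq_zero_right this.symm

theorem cocycle_pow_h874
    (hf : ∀ (g h : SL(2, ℤ)) (x : SL(2, ℤ) ⧸ Γ), f (g * h) x = f h x + f g (h • x))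
    (g : SL(2, ℤ)) (k : ℕ) (x : SL(2, ℤ) ⧸ Γ) :
    f (g ^ k) x = ∑ j ∈ Finset.range k, f g (g ^ j • x) := by
  induction k with
  | zero => simp [cocycle_one_h874 hf]
  | succ n ih => rw [pow_succ', hf, ih, Finset.sum_range_succ]

/-- `f T = f (S T)` for a cocycle with `f S = 0`. -/
theorem cocycle_T_h874
    (hf : ∀ (g h : SL(2, ℤ)) (x : SL(2, ℤ) ⧸ Γ), f (g * h) x = f h x + f g (h • x))
    (hS : ∀ x : SL(2, ℤ) ⧸ Γ, f S x = 0) (x : SL(2, ℤ) ⧸ Γ) :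
    f T x = f (S * T) x := by
  have h1 : T = S⁻¹ * (S * T) := by rw [inv_mul_cancel_left]
  have h2 : f S⁻¹ ((S * T) • x) = 0 := by
    have := cocycle_inv_h874 hf S (S⁻¹ • (S * T) • x)
    rw [smul_inv_smul, hS, neg_zero] at this
    exact this
  conv_lhs => rw [h1]
  rw [hf, h2, add_zero]

/-- The value of a cocycle at the base point on `h⁻¹ t h ∈ Γ`. -/
theorem cocycle_conj_h874
    (hf : ∀ (g h : SL(2, ℤ)) (x : SL(2, ℤ) ⧸ Γ), f (g * h) x = f h x + f g (h • x))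
    (h t : SL(2, ℤ)) (hmem : h⁻¹ * t * h ∈ Γ) :
    f (h⁻¹ * t * h) ((1 : SL(2, ℤ)) : SL(2, ℤ) ⧸ Γ) = f t ((h : SL(2, ℤ)) : SL(2, ℤ) ⧸ Γ) := by
  have hb : h • (((1 : SL(2, ℤ)) : SL(2, ℤ) ⧸ Γ)) = ((h : SL(2, ℤ)) : SL(2, ℤ) ⧸ Γ) := by
    rw [MulAction.Quotient.smul_mk, smul_eq_mul, mul_one]
  have ht : t • ((h : SL(2, ℤ)) : SL(2, ℤ) ⧸ Γ) = ((h : SL(2, ℤ)) : SL(2, ℤ) ⧸ Γ) := by
    rw [MulAction.Quotient.smul_mk, smul_eq_mul, QuotientGroup.eq]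
    have : (t * h)⁻¹ * h = (h⁻¹ * t * h)⁻¹ := by group
    rw [this]
    exact inv_mem hmem
  have h3 := cocycle_inv_h874 hf h (((1 : SL(2, ℤ)) : SL(2, ℤ) ⧸ Γ))
  rw [hb] at h3
  rw [mul_assoc, hf, hf, mul_smul, hb, ht, h3]
  abel

end Cocycle

/-- **HEIS-U from D1**: a torsion-trivial homomorphism sums to `0` over a `T`-orbit system. -/
theorem cuspSumZero_of (hD1 : Spec.ManinRepExistsStatement.{u}) :
    Spec.CuspSumZeroStatement.{u} := by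
  intro Γ _ hneg A _ χ hχ ι _ γ h w hsys
  obtain ⟨m, f, ⟨hf, hS, hU⟩, hrep⟩ := hD1 Γ hneg A χ hχ
  obtain ⟨_, hγ, hbij⟩ := hsys
  haveI : Finite (SL(2, ℤ) ⧸ Γ) := Subgroup.finite_quotient_of_finiteIndex
  letI : Fintype (SL(2, ℤ) ⧸ Γ) := Fintype.ofFinite _
  -- the value on each `γ i`
  have key : ∀ i, χ (Additive.ofMul (γ i)) =
      ∑ j : Fin (w i), (m ((S * T) • ((T ^ (j : ℕ) * h i : SL(2, ℤ)) : SL(2, ℤ) ⧸ Γ))
        - m ((T ^ (j : ℕ) * h i : SL(2, ℤ)) : SL(2, ℤ) ⧸ Γ)) := by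
    intro i
    have hmem : (h i)⁻¹ * T ^ (w i) * h i ∈ Γ := by
      rw [← hγ i]; exact (γ i).2
    rw [hrep, hγ i, cocycle_conj_h874 hf _ _ hmem, cocycle_pow_h874 hf, Finset.sum_range]
    refine Finset.sum_congr rfl fun j _ => ?_
    rw [cocycle_T_h874 hf hS, hU, MulAction.Quotient.smul_mk, smul_eq_mul]
  -- reindex by `X`
  have hbij' : Function.Bijective
      (fun p : (Σ i, Fin (w i)) => ((T ^ (p.2 : ℕ) * h p.1 : SL(2, ℤ)) : SL(2, ℤ) ⧸ Γ)) := by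
    rw [Function.bijective_iff_existsUnique]
    intro x
    obtain ⟨p, hp, hp'⟩ := hbij x
    exact ⟨p, hp.symm, fun q hq => hp' q hq.symm⟩
  have hsum : ∑ i, χ (Additive.ofMul (γ i)) =
      ∑ x : SL(2, ℤ) ⧸ Γ, (m ((S * T) • x) - m x) := by
    rw [← Function.Bijective.sum_comp hbij' (fun x => m ((S * T) • x) - m x),
      Fintype.sum_sigma]
    exact Finset.sum_congr rfl fun i _ => key i
  rw [hsum, Finset.sum_sub_distrib, sub_eq_zero]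
  exact Fintype.sum_equiv (MulAction.toPerm (S * T)) _ _ fun x => rfl

end Fermat.Agent.S41.H874
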